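/-
S18 / wave 4, package P8 of helper74's skeleton (report #1073, Core.lean v4/v5), polynomial form:
for a one-unit `u` of `O` there is, for every `N`, a POLYNOMIAL `p` with coefficients in `A` such
that `g = p(u)` is a one-unit with `g ^ m = u + (u - 1) ^ (N + 1) * e`, `e ∈ O`
(`m` invertible in `A`).  Being a polynomial in `u`, `g` has no poles where `u` has none.

* `exists_newton_poly` : in `B[X]` (`m` invertible in `B`) there are `g ≡ 1 mod X` with
  `g ^ m = 1 + X + X ^ (N + 1) * e`.  Newton step without inverting `g`: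
  `g' = g - (e(0)/m) X^(N+1)`.
* `exists_approxRoot_poly` : the statement over a valuation ring (substitute `X = u - 1`).

Only Mathlib is used.
-/
import Mathlib

set_option autoImplicit false

open Polynomial

namespace Fermat.Agent.S18.H22

/-- Approximate `m`-th roots of `1 + X` in `B[X]`, `m` invertible in `B`. -/
theorem exists_newton_poly {B : Type*} [CommRing B] (m : ℕ) (minv : B)
    (hm : (m : B) * minv = 1) (N : ℕ) :
    ∃ g a e : B[X], g = 1 + X * a ∧ g ^ m = 1 + X + X ^ (N + 1) * e := by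
  induction N with
  | zero => exact ⟨1, 0, -1, by ring, by ring⟩
  | succ N ih =>
    obtain ⟨g, a, e, hga, hge⟩ := ih
    have he : e = X * e.divX + C (e.coeff 0) := (X_mul_divX_add e).symm
    have hG : g ^ (m - 1) - 1 = X * a * ∑ i ∈ Finset.range (m - 1), g ^ i := by
      have h1 := mul_geom_sum g (m - 1)
      rw [← h1, hga]; ring
    have hmC : (m : B[X]) * C minv = 1 := by
      rw [← C_eq_natCast, ← C_mul, hm, C_1]
    obtain ⟨k, hk⟩ := Polynomial.powAddExpansion g (-(C (e.coeff 0) * C minv * X ^ (N + 1))) m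
    refine ⟨g + -(C (e.coeff 0) * C minv * X ^ (N + 1)), a - C (e.coeff 0) * C minv * X ^ N,
      e.divX - C (e.coeff 0) * a * (∑ i ∈ Finset.range (m - 1), g ^ i)
        + k * (C (e.coeff 0) * C minv) ^ 2 * X ^ N, ?_, ?_⟩
    · rw [hga]; ring
    · linear_combination hk + hge + X ^ (N + 1) * he
        + (-(X ^ (N + 1) * C (e.coeff 0) * g ^ (m - 1))) * hmC
        + (-(X ^ (N + 1) * C (e.coeff 0))) * hG

section ValuationSubring

variable {K : Type*} [Field K] {A : ValuationSubring K} {F : Type*} [Field F] [Algebra K F]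
  {O : ValuationSubring F}

/-- Evaluating a polynomial with coefficients in `A` at a point of `O` gives an element of `O`. -/
theorem eval₂_mem_of_mem (hmem : ∀ a : K, algebraMap K F a ∈ O ↔ a ∈ A) {t : F} (ht : t ∈ O)
    (q : (A : Type _)[X]) : eval₂ ((algebraMap K F).comp A.subtype) t q ∈ O := by
  rw [eval₂_eq_sum_range]
  refine sum_mem fun i _ => mul_mem ?_ (pow_mem ht i)
  exact (hmem _).mpr (q.coeff i).2

/-- **(L3a) Approximate roots, polynomial form** (general: `(m : K) ≠ 0`). -/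
theorem exists_approxRoot_poly' (hmem : ∀ a : K, algebraMap K F a ∈ O ↔ a ∈ A)
    (m : ℕ) (hmK : (m : K) ≠ 0) (hm : ((m : K))⁻¹ ∈ A) (u : F) (hu : u - 1 ∈ O.nonunits) (N : ℕ) :
    ∃ p : K[X], (∀ i, p.coeff i ∈ A) ∧
      (aeval u p - 1 ∈ O.nonunits ∧ ∃ e ∈ O, (aeval u p) ^ m = u + (u - 1) ^ (N + 1) * e) := by
  obtain ⟨ht0, htm⟩ := ValuationSubring.mem_nonunits_iff_exists_mem_maximalIdeal.mp hu
  have hminv : ((m : ℕ) : A) * (⟨((m : K))⁻¹, hm⟩ : A) = 1 := by
    apply Subtype.ext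
    simp [hmK]
  obtain ⟨g, a, e, hga, hge⟩ := exists_newton_poly (B := A) m ⟨((m : K))⁻¹, hm⟩ hminv N
  set φ : A →+* F := (algebraMap K F).comp A.subtype with hφ
  have hΦ : ∀ q : (A : Type _)[X], eval₂ φ (u - 1) q ∈ O := eval₂_mem_of_mem hmem ht0
  have hval : aeval u ((g.comp (X - 1)).map A.subtype) = eval₂ φ (u - 1) g := by
    rw [aeval_def, eval₂_map, eval₂_comp]
    congr 1
    simp
  refine ⟨(g.comp (X - 1)).map A.subtype, fun i => ?_, ?_, eval₂ φ (u - 1) e, hΦ e, ?_⟩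
  · rw [coeff_map]
    exact ((g.comp (X - 1)).coeff i).2
  · rw [hval, hga]
    have h1 : eval₂ φ (u - 1) (1 + X * a) - 1
        = (((⟨u - 1, ht0⟩ : O) * ⟨eval₂ φ (u - 1) a, hΦ a⟩ : O) : F) := by
      rw [eval₂_add, eval₂_one, eval₂_mul, eval₂_X]
      push_cast; ring
    rw [h1]
    exact ValuationSubring.mem_nonunits_iff_exists_mem_maximalIdeal.mpr
      ⟨((⟨u - 1, ht0⟩ : O) * ⟨eval₂ φ (u - 1) a, hΦ a⟩).2, Ideal.mul_mem_right _ _ htm⟩
  · rw [hval, ← eval₂_pow, hge, eval₂_add, eval₂_add, eval₂_one, eval₂_mul, eval₂_pow, eval₂_X]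
    ring

/-- **(L3a) Approximate roots, polynomial form** (package P8 of the skeleton, v4 statement;
the conclusion is `IsApproxRoot O m u N (aeval u p)` unfolded). -/
theorem exists_approxRoot_poly [CharZero K] (hmem : ∀ a : K, algebraMap K F a ∈ O ↔ a ∈ A)
    (m : ℕ) (hm0 : m ≠ 0) (hm : ((m : K))⁻¹ ∈ A) (u : F) (hu : u - 1 ∈ O.nonunits) (N : ℕ) :
    ∃ p : K[X], (∀ i, p.coeff i ∈ A) ∧
      (aeval u p - 1 ∈ O.nonunits ∧ ∃ e ∈ O, (aeval u p) ^ m = u + (u - 1) ^ (N + 1) * e) :=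
  exists_approxRoot_poly' hmem m (Nat.cast_ne_zero.mpr hm0) hm u hu N

end ValuationSubring

end Fermat.Agent.S18.H22
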