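/-
S18 / wave 4, package P10c (leaf L3e of helper74's skeleton, report #1073):
explicit subspaces of the Riemann–Roch spaces `L(n B + j D)`, without Riemann–Roch.

`F / K(x)` finite, `x` transcendental over `K`, `u ≠ 0` in `F`.  For `n : ℕ` we construct a
finite-dimensional `K`-subspace `V ⊆ F` with `dim V ≥ [F : K(x)] * (n - c)` (`c` independent of `n`)
such that every nonzero `h ∈ V` satisfies, for all `0 ≤ j ≤ m` and all places `P`,
`m * min 0 (n * ord_P x) ≤ m * ord_P h + j * ord_P u`.

`V` is spanned by `x ^ s * a i` (`s + c ≤ n`), for a `K(x)`-basis `a i` of `F` such that `a i` and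
`a i * u` are integral over `K[x]`.
-/
import Mathlib
import Fermat.Prelude.Def_AlgebraicCurve_DivisorClassGroup
import Fermat.Agent.S24.H52.AddVal

set_option autoImplicit false

open AlgebraicCurve IntermediateField

noncomputable section

namespace Fermat.Agent.S18.H22

variable {K : Type*} [Field K] {F : Type*} [Field F] [Algebra K F]

/-- An element integral over a `K`-subalgebra contained in the valuation ring of a place lies in
that valuation ring. -/
theorem mem_of_isIntegral_of_le (P : Place K F) (R : Subalgebra K F)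
    (hR : ∀ r ∈ R, r ∈ P.toValuationSubring) {z : F} (hz : IsIntegral R z) :
    z ∈ P.toValuationSubring := by
  obtain ⟨p, hp, hpz⟩ := hz
  let ι : R →+* P.toValuationSubring :=
    (algebraMap R F).codRestrict P.toValuationSubring (fun r => hR r r.2)
  have hint : IsIntegral P.toValuationSubring z := by
    refine ⟨p.map ι, hp.map ι, ?_⟩
    rw [Polynomial.eval₂_map]
    exact hpz
  obtain ⟨y, hy⟩ := IsIntegrallyClosed.isIntegral_iff.mp hint
  rw [← hy]; exact y.2

/-- `K[t] ⊆ O_P` when `t ∈ O_P`. -/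
theorem adjoin_le_place (P : Place K F) {t : F} (ht : t ∈ P.toValuationSubring) :
    ∀ r ∈ Algebra.adjoin K {t}, r ∈ P.toValuationSubring := by
  intro r hr
  induction hr using Algebra.adjoin_induction with
  | mem y hy => rw [Set.mem_singleton_iff.mp hy]; exact ht
  | algebraMap c => exact P.algebraMap_mem' c
  | add y z _ _ hy hz => exact add_mem hy hz
  | mul y z _ _ hy hz => exact mul_mem hy hz

/-- At a pole of `x`, every nonzero polynomial in `x` has its inverse in the valuation ring. -/
theorem inv_aeval_mem_of_notMem (P : Place K F) {x : F} (hx : x ∉ P.toValuationSubring)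
    (g : Polynomial K) (hg : g ≠ 0) : (Polynomial.aeval x g)⁻¹ ∈ P.toValuationSubring := by
  by_contra hinv
  have hmem : Polynomial.aeval x g ∈ P.toValuationSubring :=
    (P.toValuationSubring.mem_or_inv_mem _).resolve_right hinv
  by_cases hdeg : g.natDegree = 0
  · have hgC : g = Polynomial.C (g.coeff 0) := Polynomial.eq_C_of_natDegree_eq_zero hdeg
    apply hinv
    rw [hgC, Polynomial.aeval_C, ← map_inv₀]
    exact P.algebraMap_mem' _
  · set q : Polynomial K := g * Polynomial.C g.leadingCoeff⁻¹ with hq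
    have hqm : q.Monic := Polynomial.monic_mul_leadingCoeff_inv hg
    have hqd : q.natDegree ≠ 0 := by
      rw [hq, Polynomial.natDegree_mul_leadingCoeff_inv _ hg]
      exact hdeg
    have hqx : Polynomial.aeval x q ∈ P.toValuationSubring := by
      rw [hq, map_mul, Polynomial.aeval_C]
      exact mul_mem hmem (P.algebraMap_mem' _)
    have hint : IsIntegral P.toValuationSubring x := by
      refine IsIntegral.of_aeval_monic (p := q.map (algebraMap K P.toValuationSubring))
        (hqm.map _) ?_ ?_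
      · rwa [hqm.natDegree_map]
      · rw [Polynomial.aeval_map_algebraMap]
        exact isIntegral_algebraMap (x := (⟨_, hqx⟩ : P.toValuationSubring))
    obtain ⟨y, hy⟩ := IsIntegrallyClosed.isIntegral_iff.mp hint
    exact hx (hy ▸ y.2)

/-- Multiplication by a fixed element maps a `K`-span into `O_P` as soon as it does so on the
generators. -/
theorem mul_mem_of_mem_span (P : Place K F) (w : F) (S : Set F)
    (hS : ∀ g ∈ S, w * g ∈ P.toValuationSubring) :
    ∀ h ∈ Submodule.span K S, w * h ∈ P.toValuationSubring := by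
  intro h hh
  induction hh using Submodule.span_induction with
  | mem y hy => exact hS y hy
  | zero => rw [mul_zero]; exact zero_mem _
  | add y z _ _ hy hz => rw [mul_add]; exact add_mem hy hz
  | smul c y _ hy =>
    have h1 : w * (c • y) = algebraMap K F c * (w * y) := by
      rw [Algebra.smul_def]; ring
    rw [h1]; exact mul_mem (P.algebraMap_mem' c) hy

/-- The arithmetic behind the divisor condition. -/
theorem divCond_arith (m j a b : ℤ) (hj0 : 0 ≤ j) (hjm : j ≤ m) (ha : 0 ≤ a) (hab : 0 ≤ a + b) :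
    0 ≤ m * a + j * b := by
  rcases le_or_gt 0 b with hb | hb
  · nlinarith [mul_nonneg (hj0.trans hjm) ha, mul_nonneg hj0 hb]
  · nlinarith [mul_nonneg (hj0.trans hjm) hab, mul_nonneg (sub_nonneg.mpr hjm) (neg_nonneg.mpr hb.le)]

/-- `ord` of a natural power. -/
theorem ord_pow' (P : Place K F) (f : F) (n : ℕ) : P.ord (f ^ n) = n * P.ord f := by
  have h := P.ord_zpow f (n : ℤ)
  rwa [zpow_natCast] at h

/-- Powers of a transcendental element are linearly independent. -/
theorem linearIndependent_pow_of_transcendental {L : Type*} [Field L] [Algebra K L] {g : L}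
    (hg : Transcendental K g) : LinearIndependent K (fun s : ℕ => g ^ s) := by
  have h1 : LinearIndependent K (fun s : ℕ => (Polynomial.aeval g).toLinearMap
      (Polynomial.basisMonomials K s)) := by
    apply (Polynomial.basisMonomials K).linearIndependent.map'
    rw [LinearMap.ker_eq_bot]
    exact transcendental_iff_injective.mp hg
  convert h1 using 2 with s
  simp [Polynomial.aeval_monomial]


/-- `K(x⁻¹) = K(x)`. -/
theorem adjoin_simple_inv_eq (x : F) : K⟮x⁻¹⟯ = K⟮x⟯ := by
  apply le_antisymm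
  · rw [adjoin_simple_le_iff]
    exact inv_mem (mem_adjoin_simple_self K x)
  · rw [adjoin_simple_le_iff]
    have h : (x⁻¹)⁻¹ ∈ K⟮x⁻¹⟯ := inv_mem (mem_adjoin_simple_self K x⁻¹)
    rwa [inv_inv] at h

open scoped IntermediateField.algebraAdjoinAdjoin in
/-- **Finite part**: a `K(x)`-basis `a` of `F` such that `a i` and `a i * u` lie in the valuation
ring of every place at which `x` is integral. -/
theorem exists_basis_integral_mul (x : F) [FiniteDimensional K⟮x⟯ F] (u : F) :
    ∃ a : Fin (Module.finrank K⟮x⟯ F) → F, LinearIndependent K⟮x⟯ a ∧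
      ∀ i, IsIntegral (Algebra.adjoin K {x}) (a i) ∧ IsIntegral (Algebra.adjoin K {x}) (a i * u) := by
  classical
  obtain ⟨s, b, hb⟩ := FiniteDimensional.exists_is_basis_integral (Algebra.adjoin K {x}) K⟮x⟯ F
  obtain ⟨y0, hy0, hy0u⟩ := exists_integral_multiples (Algebra.adjoin K {x}) K⟮x⟯ ({u} : Finset F)
  have hu' : IsIntegral (Algebra.adjoin K {x}) (y0 • u) := hy0u u (Finset.mem_singleton_self u)
  have hy0F : (y0 : F) ≠ 0 := fun h => hy0 (Subtype.ext h)
  have hcard : Fintype.card s = Module.finrank K⟮x⟯ F := (Module.finrank_eq_card_basis b).symm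
  let e : Fin (Module.finrank K⟮x⟯ F) ≃ s := (Fintype.equivFinOfCardEq hcard).symm
  refine ⟨fun i => (y0 : F) * b (e i), ?_, fun i => ⟨?_, ?_⟩⟩
  · have h1 : LinearIndependent K⟮x⟯ (fun i => b (e i)) :=
      b.linearIndependent.comp e e.injective
    have h2 := h1.map' (LinearMap.mulLeft K⟮x⟯ (y0 : F))
      (LinearMap.ker_eq_bot.mpr (mul_right_injective₀ hy0F))
    exact h2
  · have h1 : (y0 : F) * b (e i) = y0 • b (e i) := rfl
    show IsIntegral (Algebra.adjoin K {x}) ((y0 : F) * b (e i))
    rw [h1]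
    exact (hb (e i)).smul y0
  · have h1 : (y0 : F) * b (e i) * u = b (e i) * (y0 • u) := by
      have h2 : y0 • u = (y0 : F) * u := rfl
      rw [h2]; ring
    show IsIntegral (Algebra.adjoin K {x}) ((y0 : F) * b (e i) * u)
    rw [h1]
    exact (hb (e i)).mul hu'


open scoped IntermediateField.algebraAdjoinAdjoin in
/-- **Infinite part**: a uniform pole bound at the poles of `x` for finitely many elements. -/
theorem exists_pole_bound (x : F) (hx0 : x ≠ 0) [FiniteDimensional K⟮x⟯ F] (T : Finset F) :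
    ∃ D : ℕ, ∀ z ∈ T, ∀ P : Place K F, x ∉ P.toValuationSubring →
      (x⁻¹) ^ D * z ∈ P.toValuationSubring := by
  classical
  have : FiniteDimensional K⟮x⁻¹⟯ F := by
    rw [adjoin_simple_inv_eq]; infer_instance
  obtain ⟨d, hd, hdT⟩ := exists_integral_multiples (Algebra.adjoin K {x⁻¹}) K⟮x⁻¹⟯ T
  have hdmem : (d : F) ∈ (Polynomial.aeval (R := K) x⁻¹).range := by
    rw [← Algebra.adjoin_singleton_eq_range_aeval]; exact d.2
  obtain ⟨p, hp⟩ := hdmem
  have hdF : (d : F) ≠ 0 := fun h => hd (Subtype.ext h)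
  have hp0 : p ≠ 0 := by
    rintro rfl
    exact hdF (by rw [← hp, map_zero])
  refine ⟨p.natDegree, fun z hz P hxP => ?_⟩
  have hxinv : x⁻¹ ∈ P.toValuationSubring :=
    (P.toValuationSubring.mem_or_inv_mem x).resolve_left hxP
  have h1 : (d : F) * z ∈ P.toValuationSubring :=
    mem_of_isIntegral_of_le P _ (adjoin_le_place P hxinv) (hdT z hz)
  have h2 : x ^ p.natDegree * (d : F) = Polynomial.aeval x p.reverse := by
    let _ : Invertible (x⁻¹) := invertibleOfNonzero (inv_ne_zero hx0)
    have h3 := Polynomial.eval₂_reverse_mul_pow (algebraMap K F) (x⁻¹) p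
    rw [invOf_eq_inv, inv_inv] at h3
    have h4 : (d : F) = Polynomial.eval₂ (algebraMap K F) x p.reverse * x⁻¹ ^ p.natDegree := by
      rw [h3, ← Polynomial.aeval_def]; exact hp.symm
    rw [h4, Polynomial.aeval_def]
    have h5 : x ^ p.natDegree * x⁻¹ ^ p.natDegree = 1 := by
      rw [← mul_pow, mul_inv_cancel₀ hx0, one_pow]
    linear_combination (Polynomial.eval₂ (algebraMap K F) x p.reverse) * h5
  have h4 : (Polynomial.aeval x p.reverse)⁻¹ ∈ P.toValuationSubring :=
    inv_aeval_mem_of_notMem P hxP _ (by rwa [ne_eq, Polynomial.reverse_eq_zero])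
  have h5 : (x⁻¹) ^ p.natDegree * z = (Polynomial.aeval x p.reverse)⁻¹ * ((d : F) * z) := by
    rw [← h2, mul_inv, inv_pow]
    field_simp
  rw [h5]; exact mul_mem h4 h1

/-- **(L3e) Explicit subspaces, core form.**  For `F / K(x)` finite with `x` transcendental and
`u ≠ 0`: subspaces `V` of dimension `≥ [F : K(x)] * n - c` all of whose nonzero elements satisfy
the divisor condition of `L(n B + j D)` for every `0 ≤ j ≤ m` (`B` the polar divisor of `x`,
`m D = div u`).  No Riemann–Roch. -/
theorem exists_subspaces_core (x : F) (hx : Transcendental K x) [FiniteDimensional K⟮x⟯ F]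
    (m : ℕ) (u : F) (hu0 : u ≠ 0) :
    ∃ c : ℕ, ∀ n : ℕ, ∃ V : Submodule K F, FiniteDimensional K V ∧
      (∀ h ∈ V, h ≠ 0 → ∀ j : ℕ, j ≤ m → ∀ P : Place K F,
          (m : ℤ) * min 0 ((n : ℤ) * P.ord x) ≤ (m : ℤ) * P.ord h + (j : ℤ) * P.ord u) ∧
      Module.finrank K⟮x⟯ F * n ≤ Module.finrank K V + c := by
  classical
  have hx0 : x ≠ 0 := by
    rintro rfl
    exact hx isAlgebraic_zero
  obtain ⟨a, hali, hint⟩ := exists_basis_integral_mul (K := K) x u
  obtain ⟨D, hD⟩ := exists_pole_bound (K := K) x hx0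
    (Finset.univ.image a ∪ Finset.univ.image (fun i => a i * u))
  have hDa : ∀ i, ∀ P : Place K F, x ∉ P.toValuationSubring →
      (x⁻¹) ^ D * a i ∈ P.toValuationSubring := fun i =>
    hD _ (Finset.mem_union_left _ (Finset.mem_image_of_mem _ (Finset.mem_univ i)))
  have hDau : ∀ i, ∀ P : Place K F, x ∉ P.toValuationSubring →
      (x⁻¹) ^ D * (a i * u) ∈ P.toValuationSubring := fun i =>
    hD _ (Finset.mem_union_right _
      (Finset.mem_image_of_mem (fun i => a i * u) (Finset.mem_univ i)))
  refine ⟨Module.finrank K⟮x⟯ F * D, fun n => ?_⟩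
  let fam : Fin (n + 1 - D) × Fin (Module.finrank K⟮x⟯ F) → F := fun q => x ^ (q.1 : ℕ) * a q.2
  refine ⟨Submodule.span K (Set.range fam),
    FiniteDimensional.span_of_finite K (Set.finite_range fam), ?_, ?_⟩
  · intro h hh hh0 j hjm P
    have hj0 : (0 : ℤ) ≤ (j : ℤ) := Int.natCast_nonneg j
    have hjm' : (j : ℤ) ≤ (m : ℤ) := by exact_mod_cast hjm
    have hm0 : (0 : ℤ) ≤ (m : ℤ) := Int.natCast_nonneg m
    by_cases hxP : x ∈ P.toValuationSubring
    · have hR := adjoin_le_place P hxP
      have hgen1 : ∀ g ∈ Set.range fam, 1 * g ∈ P.toValuationSubring := by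
        rintro _ ⟨q, rfl⟩
        rw [one_mul]
        exact mul_mem (pow_mem hxP _) (mem_of_isIntegral_of_le P _ hR (hint q.2).1)
      have hgenu : ∀ g ∈ Set.range fam, u * g ∈ P.toValuationSubring := by
        rintro _ ⟨q, rfl⟩
        have e1 : u * (x ^ (q.1 : ℕ) * a q.2) = x ^ (q.1 : ℕ) * (a q.2 * u) := by ring
        rw [e1]
        exact mul_mem (pow_mem hxP _) (mem_of_isIntegral_of_le P _ hR (hint q.2).2)
      have h1 := mul_mem_of_mem_span P 1 _ hgen1 h hh
      have h2 := mul_mem_of_mem_span P u _ hgenu h hh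
      rw [one_mul] at h1
      have o1 : 0 ≤ P.ord h := Fermat.Agent.S24.H52.ord_nonneg_of_mem P h1
      have o2 : 0 ≤ P.ord (u * h) := Fermat.Agent.S24.H52.ord_nonneg_of_mem P h2
      rw [P.ord_mul hu0 hh0] at o2
      have key := divCond_arith m j (P.ord h) (P.ord u) hj0 hjm' o1 (by linarith)
      have hmin : (m : ℤ) * min 0 ((n : ℤ) * P.ord x) ≤ 0 :=
        mul_nonpos_of_nonneg_of_nonpos hm0 (min_le_left _ _)
      linarith
    · have hxinv : x⁻¹ ∈ P.toValuationSubring :=
        (P.toValuationSubring.mem_or_inv_mem x).resolve_left hxP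
      have hsplit : ∀ (t : ℕ) (w : F), t + D ≤ n →
          (x⁻¹) ^ n * (x ^ t * w) = (x⁻¹) ^ (n - t - D) * ((x⁻¹) ^ D * w) := by
        intro t w ht
        obtain ⟨k, hk⟩ : ∃ k, n = k + t + D := ⟨n - t - D, by omega⟩
        have hk' : n - t - D = k := by omega
        have e : (x⁻¹) ^ n = (x⁻¹) ^ k * (x⁻¹) ^ t * (x⁻¹) ^ D := by
          rw [hk, pow_add, pow_add]
        rw [hk', e]
        have h5 : x⁻¹ ^ t * x ^ t = 1 := by
          rw [← mul_pow, inv_mul_cancel₀ hx0, one_pow]
        linear_combination (x⁻¹ ^ k * x⁻¹ ^ D * w) * h5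
      have hqD : ∀ q : Fin (n + 1 - D), (q : ℕ) + D ≤ n := fun q => by
        have := q.2; omega
      have hgen1 : ∀ g ∈ Set.range fam, (x⁻¹) ^ n * g ∈ P.toValuationSubring := by
        rintro _ ⟨q, rfl⟩
        show (x⁻¹) ^ n * (x ^ (q.1 : ℕ) * a q.2) ∈ P.toValuationSubring
        rw [hsplit _ _ (hqD q.1)]
        exact mul_mem (pow_mem hxinv _) (hDa q.2 P hxP)
      have hgenu : ∀ g ∈ Set.range fam, ((x⁻¹) ^ n * u) * g ∈ P.toValuationSubring := by
        rintro _ ⟨q, rfl⟩
        have e1 : ((x⁻¹) ^ n * u) * (x ^ (q.1 : ℕ) * a q.2)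
            = (x⁻¹) ^ n * (x ^ (q.1 : ℕ) * (a q.2 * u)) := by ring
        show ((x⁻¹) ^ n * u) * (x ^ (q.1 : ℕ) * a q.2) ∈ P.toValuationSubring
        rw [e1, hsplit _ _ (hqD q.1)]
        exact mul_mem (pow_mem hxinv _) (hDau q.2 P hxP)
      have h1 := mul_mem_of_mem_span P _ _ hgen1 h hh
      have h2 := mul_mem_of_mem_span P _ _ hgenu h hh
      have hxn : (x⁻¹) ^ n ≠ 0 := pow_ne_zero _ (inv_ne_zero hx0)
      have o1 : 0 ≤ P.ord ((x⁻¹) ^ n * h) := Fermat.Agent.S24.H52.ord_nonneg_of_mem P h1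
      have o2 : 0 ≤ P.ord ((x⁻¹) ^ n * u * h) := Fermat.Agent.S24.H52.ord_nonneg_of_mem P h2
      rw [P.ord_mul hxn hh0, ord_pow', P.ord_inv] at o1
      rw [P.ord_mul (mul_ne_zero hxn hu0) hh0, P.ord_mul hxn hu0, ord_pow', P.ord_inv] at o2
      have key := divCond_arith m j (P.ord h - (n : ℤ) * P.ord x) (P.ord u) hj0 hjm'
        (by linarith) (by linarith)
      have hmin : (m : ℤ) * min 0 ((n : ℤ) * P.ord x) ≤ (m : ℤ) * ((n : ℤ) * P.ord x) :=
        mul_le_mul_of_nonneg_left (min_le_right _ _) hm0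
      linarith
  · have hgen : Transcendental K (AdjoinSimple.gen K x) := by
      intro halg
      apply hx
      have h1 := halg.algebraMap (A := F)
      rwa [AdjoinSimple.algebraMap_gen] at h1
    have hpow := linearIndependent_pow_of_transcendental hgen
    have hpowfin : LinearIndependent K (fun t : Fin (n + 1 - D) => (AdjoinSimple.gen K x) ^ (t : ℕ)) :=
      hpow.comp (fun t : Fin (n + 1 - D) => (t : ℕ)) Fin.val_injective
    have hsm := linearIndependent_smul hpowfin hali
    have hli : LinearIndependent K fam := by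
      convert hsm using 2 with q
      show x ^ (q.1 : ℕ) * a q.2 = ((AdjoinSimple.gen K x ^ (q.1 : ℕ) : K⟮x⟯) : F) * a q.2
      rw [SubmonoidClass.coe_pow, AdjoinSimple.coe_gen]
    rw [finrank_span_eq_card hli, Fintype.card_prod, Fintype.card_fin, Fintype.card_fin]
    have h1 : n ≤ (n + 1 - D) + D := by omega
    calc Module.finrank K⟮x⟯ F * n ≤ Module.finrank K⟮x⟯ F * ((n + 1 - D) + D) :=
          Nat.mul_le_mul_left _ h1
      _ = (n + 1 - D) * Module.finrank K⟮x⟯ F + Module.finrank K⟮x⟯ F * D := by ring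


/-- **(L3e) Explicit subspaces** in the shape of the skeleton (one space for every `j < m`;
the divisor condition is stated for nonzero `h`). -/
theorem exists_subspaces_of_transcendental (x : F) (hx : Transcendental K x)
    [FiniteDimensional K⟮x⟯ F] (m : ℕ) (u : F) (hu0 : u ≠ 0) :
    ∃ c : ℕ, ∀ n : ℕ, ∃ V : Fin m → Submodule K F, (∀ j, FiniteDimensional K (V j)) ∧
      (∀ j : Fin m, ∀ h ∈ V j, h ≠ 0 → ∀ P : Place K F,
        (m : ℤ) * min 0 ((n : ℤ) * P.ord x) ≤ (m : ℤ) * P.ord h + (((j : ℕ) : ℤ)) * P.ord u) ∧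
      m * Module.finrank K⟮x⟯ F * n ≤ (∑ j, Module.finrank K (V j)) + c := by
  obtain ⟨c, hc⟩ := exists_subspaces_core (K := K) x hx m u hu0
  refine ⟨m * c, fun n => ?_⟩
  obtain ⟨V, hV, hcond, hdim⟩ := hc n
  refine ⟨fun _ => V, fun _ => hV, fun j h hh hh0 P => hcond h hh hh0 j j.2.le P, ?_⟩
  rw [Finset.sum_const, Finset.card_univ, Fintype.card_fin, smul_eq_mul]
  calc m * Module.finrank K⟮x⟯ F * n = m * (Module.finrank K⟮x⟯ F * n) := by ring
    _ ≤ m * (Module.finrank K V + c) := Nat.mul_le_mul_left _ hdim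
    _ = m * Module.finrank K V + m * c := by ring

/-- The base function of a Gauss valuation ring over a nontrivial valuation ring `A` of an
algebraically closed field is transcendental.  (`hmem`, `hgauss` are the fields `mem_iff`, `gauss`
of the abstract setup.) -/
theorem transcendental_of_gauss [IsAlgClosed K] {A : ValuationSubring K} {O : ValuationSubring F}
    {x : F} (hA : A ≠ ⊤) (hmem : ∀ a : K, algebraMap K F a ∈ O ↔ a ∈ A)
    (hgauss : ∀ p : Polynomial K, (∀ i, p.coeff i ∈ A) → (∃ i, p.coeff i ≠ 0 ∧ (p.coeff i)⁻¹ ∈ A) →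
      Polynomial.aeval x p ∈ O ∧ (Polynomial.aeval x p)⁻¹ ∈ O) :
    Transcendental K x := by
  intro halg
  -- `x` is a constant
  have hirr := minpoly.irreducible halg.isIntegral
  obtain ⟨a, ha⟩ := minpoly.mem_range_of_degree_eq_one K x
    (IsAlgClosed.degree_eq_one_of_irreducible K hirr)
  -- a nonzero nonunit of `A`
  obtain ⟨y, hy⟩ : ∃ y : K, y ∉ A := by
    by_contra hall
    exact hA (eq_top_iff.mpr fun z _ => not_not.mp fun hz => hall ⟨z, hz⟩)
  have hy0 : y ≠ 0 := fun h => hy (h ▸ A.zero_mem)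
  have hpi : y⁻¹ ∈ A := (A.mem_or_inv_mem y).resolve_left hy
  -- `x ∈ O`, hence `a ∈ A`
  have hX := hgauss Polynomial.X
    (fun i => by
      rw [Polynomial.coeff_X]
      split_ifs
      · exact A.one_mem
      · exact A.zero_mem)
    ⟨1, by simp, by simp⟩
  rw [Polynomial.aeval_X, ← ha] at hX
  have haA : a ∈ A := (hmem a).mp hX.1
  -- the polynomial `X + (y⁻¹ - a)`
  have hp := hgauss (Polynomial.X + Polynomial.C (y⁻¹ - a))
    (fun i => by
      rw [Polynomial.coeff_add, Polynomial.coeff_X, Polynomial.coeff_C]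
      split_ifs
      · exact add_mem (one_mem A) (sub_mem hpi haA)
      · exact add_mem (one_mem A) (zero_mem A)
      · exact add_mem (zero_mem A) (sub_mem hpi haA)
      · exact add_mem (zero_mem A) (zero_mem A))
    ⟨1, by simp, by simp⟩
  have hval : Polynomial.aeval x (Polynomial.X + Polynomial.C (y⁻¹ - a)) = algebraMap K F y⁻¹ := by
    rw [map_add, Polynomial.aeval_X, Polynomial.aeval_C, ← ha, map_sub]
    simp
  rw [hval, ← map_inv₀, inv_inv] at hp
  exact hy ((hmem y).mp hp.2)

end Fermat.Agent.S18.H22
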