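/-
S18 / wave 4, package P8 of helper74's skeleton (report #1073, Core.lean):
approximate `m`-th roots of a one-unit in a valuation ring whose residue characteristic does not
divide `m`.

* `exists_newton_root`, `sub_one_eq_of_pow_eq` : the two statements in an arbitrary local ring.
* `exists_approxRoot` (L3a)  : for a one-unit `u` of `O` and every `N` there is a one-unit `g` with
  `g ^ m = u + (u - 1) ^ (N + 1) * e`, `e ∈ O`.
* `sub_one_mem_of_pow` (L3b) : a one-unit `y` with `y ^ m = 1 + t * e` (`e ∈ O`) is `1 + t * e'`.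

Only Mathlib is used.
-/
import Mathlib

set_option autoImplicit false

namespace Fermat.Agent.S18.H22

/-- In a local ring, `1 + t * a` is a unit when `t` lies in the maximal ideal. -/
theorem isUnit_one_add_mul {R : Type*} [CommRing R] [IsLocalRing R] {t : R}
    (ht : t ∈ IsLocalRing.maximalIdeal R) (a : R) : IsUnit (1 + t * a) := by
  by_contra hg
  have hg' : 1 + t * a ∈ IsLocalRing.maximalIdeal R := by
    rwa [IsLocalRing.mem_maximalIdeal, mem_nonunits_iff]
  have h1 : (1 : R) ∈ IsLocalRing.maximalIdeal R := by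
    have h2 : (1 : R) = (1 + t * a) - t * a := by ring
    rw [h2]
    exact Ideal.sub_mem _ hg' (Ideal.mul_mem_right _ _ ht)
  exact (Ideal.ne_top_iff_one _).mp (IsLocalRing.maximalIdeal.isMaximal R).ne_top h1

/-- **Newton iteration** for `X ^ m = 1 + t` in a local ring (`t` in the maximal ideal, `m` a
unit): approximate roots to every order `t ^ (N + 1)`. -/
theorem exists_newton_root {R : Type*} [CommRing R] [IsLocalRing R] (t : R)
    (ht : t ∈ IsLocalRing.maximalIdeal R) (m : ℕ) (hm : IsUnit (m : R)) (N : ℕ) :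
    ∃ g a e : R, g = 1 + t * a ∧ g ^ m = 1 + t + t ^ (N + 1) * e := by
  induction N with
  | zero => exact ⟨1, 0, -1, by ring, by ring⟩
  | succ N ih =>
    obtain ⟨g, a, e, hga, hge⟩ := ih
    have hgu : IsUnit g := hga ▸ isUnit_one_add_mul ht a
    have hu : IsUnit ((m : R) * g ^ (m - 1)) := hm.mul (hgu.pow _)
    obtain ⟨v, hv⟩ := hu.exists_right_inv
    obtain ⟨k, hk⟩ := Polynomial.powAddExpansion g (-(t ^ (N + 1) * e * v)) m
    refine ⟨g + -(t ^ (N + 1) * e * v), a - t ^ N * e * v, k * t ^ N * e ^ 2 * v ^ 2, ?_, ?_⟩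
    · rw [hga]; ring
    · linear_combination hk + hge - t ^ (N + 1) * e * hv

/-- In a local ring with `m` a unit: if `y = 1 + s` with `s` in the maximal ideal, then
`∑ i < m, y ^ i` is a unit. -/
theorem isUnit_geom_sum {R : Type*} [CommRing R] [IsLocalRing R] {y : R}
    (hy : y - 1 ∈ IsLocalRing.maximalIdeal R) (m : ℕ) (hm : IsUnit (m : R)) :
    IsUnit (∑ i ∈ Finset.range m, y ^ i) := by
  have hres : IsLocalRing.residue R y = 1 := by
    have h0 : IsLocalRing.residue R (y - 1) = 0 := by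
      rwa [IsLocalRing.residue_eq_zero_iff]
    rw [map_sub, map_one, sub_eq_zero] at h0
    exact h0
  have hsum : IsLocalRing.residue R (∑ i ∈ Finset.range m, y ^ i) = IsLocalRing.residue R (m : R) := by
    rw [map_sum]
    simp [hres]
  by_contra hns
  have hmem : (∑ i ∈ Finset.range m, y ^ i) ∈ IsLocalRing.maximalIdeal R := by
    rwa [IsLocalRing.mem_maximalIdeal, mem_nonunits_iff]
  have h0 : IsLocalRing.residue R (m : R) = 0 := by
    rw [← hsum, IsLocalRing.residue_eq_zero_iff]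
    exact hmem
  rw [IsLocalRing.residue_eq_zero_iff, IsLocalRing.mem_maximalIdeal, mem_nonunits_iff] at h0
  exact h0 hm

/-- Uniqueness of roots congruent to one, in a local ring with `m` a unit. -/
theorem sub_one_eq_of_pow_eq {R : Type*} [CommRing R] [IsLocalRing R] {y : R}
    (hy : y - 1 ∈ IsLocalRing.maximalIdeal R) (m : ℕ) (hm : IsUnit (m : R)) :
    ∃ s : R, y - 1 = (y ^ m - 1) * s := by
  obtain ⟨s, hs⟩ := (isUnit_geom_sum hy m hm).exists_right_inv
  refine ⟨s, ?_⟩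
  have hg := geom_sum_mul y m
  calc y - 1 = (y - 1) * ((∑ i ∈ Finset.range m, y ^ i) * s) := by rw [hs, mul_one]
    _ = ((∑ i ∈ Finset.range m, y ^ i) * (y - 1)) * s := by ring
    _ = (y ^ m - 1) * s := by rw [hg]

section ValuationSubring

variable {K : Type*} [Field K] {A : ValuationSubring K} {F : Type*} [Field F] [Algebra K F]
  {O : ValuationSubring F}

/-- `m` is a unit of `O` when `m⁻¹ ∈ A` and `m ≠ 0` in `K`. -/
theorem isUnit_natCast_of_inv_mem (hmem : ∀ a : K, algebraMap K F a ∈ O ↔ a ∈ A)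
    (m : ℕ) (hmK : (m : K) ≠ 0) (hm : ((m : K))⁻¹ ∈ A) : IsUnit ((m : ℕ) : O) := by
  have hmO : ((m : F))⁻¹ ∈ O := by
    have h := (hmem ((m : K))⁻¹).mpr hm
    rwa [map_inv₀, map_natCast] at h
  have hmF : (m : F) ≠ 0 := by
    have h := (algebraMap K F).injective.ne hmK
    rwa [map_natCast, map_zero] at h
  refine IsUnit.of_mul_eq_one (⟨((m : F))⁻¹, hmO⟩ : O) ?_
  apply Subtype.ext
  simp [hmF]

/-- **(L3a) Approximate roots**, general form (`(m : K) ≠ 0` instead of characteristic zero). -/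
theorem exists_approxRoot' (hmem : ∀ a : K, algebraMap K F a ∈ O ↔ a ∈ A)
    (m : ℕ) (hmK : (m : K) ≠ 0) (hm : ((m : K))⁻¹ ∈ A) (u : F) (hu : u - 1 ∈ O.nonunits) (N : ℕ) :
    ∃ g : F, g - 1 ∈ O.nonunits ∧ ∃ e ∈ O, g ^ m = u + (u - 1) ^ (N + 1) * e := by
  obtain ⟨ht0, htm⟩ := ValuationSubring.mem_nonunits_iff_exists_mem_maximalIdeal.mp hu
  obtain ⟨g, a, e, hga, hge⟩ :=
    exists_newton_root (⟨u - 1, ht0⟩ : O) htm m (isUnit_natCast_of_inv_mem hmem m hmK hm) N
  refine ⟨(g : F), ?_, (e : F), e.2, ?_⟩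
  · have h1 : (g : F) - 1 = (((⟨u - 1, ht0⟩ : O) * a : O) : F) := by
      rw [hga]; push_cast; ring
    rw [h1]
    exact ValuationSubring.mem_nonunits_iff_exists_mem_maximalIdeal.mpr
      ⟨((⟨u - 1, ht0⟩ : O) * a).2, Ideal.mul_mem_right _ _ htm⟩
  · have h2 := congrArg (Subtype.val : O → F) hge
    push_cast at h2
    rw [h2]; ring

/-- **(L3a) Approximate roots** (package P8 of the skeleton): truncated binomial series, in the
form of a Newton iteration. -/
theorem exists_approxRoot [CharZero K] (hmem : ∀ a : K, algebraMap K F a ∈ O ↔ a ∈ A)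
    (m : ℕ) (hm0 : m ≠ 0) (hm : ((m : K))⁻¹ ∈ A) (u : F) (hu : u - 1 ∈ O.nonunits) (N : ℕ) :
    ∃ g : F, g - 1 ∈ O.nonunits ∧ ∃ e ∈ O, g ^ m = u + (u - 1) ^ (N + 1) * e :=
  exists_approxRoot' hmem m (Nat.cast_ne_zero.mpr hm0) hm u hu N

/-- **(L3b) Uniqueness of approximate roots**, general form. -/
theorem sub_one_mem_of_pow' (hmem : ∀ a : K, algebraMap K F a ∈ O ↔ a ∈ A)
    (m : ℕ) (hmK : (m : K) ≠ 0) (hm : ((m : K))⁻¹ ∈ A) (y t : F) (hy : y - 1 ∈ O.nonunits)
    (h : ∃ e ∈ O, y ^ m = 1 + t * e) : ∃ e' ∈ O, y = 1 + t * e' := by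
  obtain ⟨e, he, hye⟩ := h
  obtain ⟨hy0, hym⟩ := ValuationSubring.mem_nonunits_iff_exists_mem_maximalIdeal.mp hy
  have hyO : y ∈ O := by
    have h1 : y = (y - 1) + 1 := by ring
    rw [h1]; exact add_mem hy0 (one_mem O)
  have hym' : (⟨y, hyO⟩ : O) - 1 ∈ IsLocalRing.maximalIdeal O := by
    have h1 : (⟨y, hyO⟩ : O) - 1 = ⟨y - 1, hy0⟩ := Subtype.ext (by simp)
    rw [h1]; exact hym
  obtain ⟨s, hs⟩ := sub_one_eq_of_pow_eq hym' m (isUnit_natCast_of_inv_mem hmem m hmK hm)
  refine ⟨e * (s : F), mul_mem he s.2, ?_⟩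
  have h2 := congrArg (Subtype.val : O → F) hs
  push_cast at h2
  have h3 : y - 1 = (y ^ m - 1) * (s : F) := h2
  have h4 : y ^ m - 1 = t * e := by rw [hye]; ring
  rw [h4] at h3
  linear_combination h3

/-- **(L3b) Uniqueness of approximate roots** (package P8 of the skeleton). -/
theorem sub_one_mem_of_pow [CharZero K] (hmem : ∀ a : K, algebraMap K F a ∈ O ↔ a ∈ A)
    (m : ℕ) (hm0 : m ≠ 0) (hm : ((m : K))⁻¹ ∈ A) (y t : F) (hy : y - 1 ∈ O.nonunits)
    (h : ∃ e ∈ O, y ^ m = 1 + t * e) : ∃ e' ∈ O, y = 1 + t * e' :=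
  sub_one_mem_of_pow' hmem m (Nat.cast_ne_zero.mpr hm0) hm y t hy h

end ValuationSubring

end Fermat.Agent.S18.H22
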